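import Mathlib

/-!
# Linear algebra in dimension two
-/

set_option autoImplicit false

namespace Fermat.Agent.EGal

open Matrix

section mat

variable {k : Type*} [Field k]

lemma mat_unipotent {x : Matrix (Fin 2) (Fin 2) k} (h : (x - 1) * (x - 1) = 0) :
    x.trace = 2 ∧ x.det = 1 := by
  set a := x 0 0
  set b := x 0 1
  set c := x 1 0
  set d := x 1 1
  have h00 := congrFun (congrFun h 0) 0
  have h01 := congrFun (congrFun h 0) 1
  have h10 := congrFun (congrFun h 1) 0
  have h11 := congrFun (congrFun h 1) 1
  simp only [Matrix.mul_apply, Fin.sum_univ_two, Matrix.sub_apply, Matrix.one_apply_eq,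
    Matrix.zero_apply, Matrix.one_apply_ne (show (0 : Fin 2) ≠ 1 by decide),
    Matrix.one_apply_ne (show (1 : Fin 2) ≠ 0 by decide), sub_zero] at h00 h01 h10 h11
  change (a - 1) * (a - 1) + b * c = 0 at h00
  change (a - 1) * b + b * (d - 1) = 0 at h01
  change c * (a - 1) + (d - 1) * c = 0 at h10
  change c * b + (d - 1) * (d - 1) = 0 at h11
  have htr : a + d - 2 = 0 := by
    by_contra hne
    have hb : b = 0 := by
      have : b * (a + d - 2) = 0 := by linear_combination h01
      exact (mul_eq_zero.mp this).resolve_right hne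
    rw [hb, zero_mul, add_zero, mul_self_eq_zero] at h00
    rw [hb, mul_zero, zero_add, mul_self_eq_zero] at h11
    apply hne
    linear_combination h00 + h11
  constructor
  · rw [Matrix.trace_fin_two]
    linear_combination htr
  · rw [Matrix.det_fin_two]
    change a * d - b * c = 1
    linear_combination -h00 + a * htr

lemma mat_ch (x : Matrix (Fin 2) (Fin 2) k) : x * x - x.trace • x + x.det • 1 = 0 := by
  ext i j
  rw [Matrix.trace_fin_two, Matrix.det_fin_two]
  simp only [Matrix.add_apply, Matrix.sub_apply, Matrix.smul_apply, Matrix.mul_apply,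
    Fin.sum_univ_two, smul_eq_mul, Matrix.zero_apply]
  fin_cases i <;> fin_cases j <;> simp <;> ring

/-- If `u`, `su`, `su²` are unipotent then so is `s`. -/
lemma mat_unipotent_of {s u : Matrix (Fin 2) (Fin 2) k} (hu : (u - 1) * (u - 1) = 0)
    (h1 : (s * u - 1) * (s * u - 1) = 0) (h2 : (s * (u * u) - 1) * (s * (u * u) - 1) = 0) :
    (s - 1) * (s - 1) = 0 := by
  obtain ⟨t1, d1⟩ := mat_unipotent h1
  obtain ⟨t2, d2⟩ := mat_unipotent h2
  obtain ⟨tu, du⟩ := mat_unipotent hu
  have hu2 : u * u = 1 + ((u - 1) + (u - 1)) := by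
    have e : u * u = (u - 1) * (u - 1) + (1 + ((u - 1) + (u - 1))) := by noncomm_ring
    rw [e, hu, zero_add]
  have hsu : s * u = s + s * (u - 1) := by noncomm_ring
  have hsu2 : s * (u * u) = s + (s * (u - 1) + s * (u - 1)) := by
    rw [hu2]; noncomm_ring
  rw [hsu, Matrix.trace_add] at t1
  rw [hsu2, Matrix.trace_add, Matrix.trace_add] at t2
  have h3 : (s * (u - 1)).trace = 0 := by linear_combination t2 - t1
  have ts : s.trace = 2 := by rw [← t1, h3, add_zero]
  have ds : s.det = 1 := by
    rw [Matrix.det_mul, du, mul_one] at d1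
    exact d1
  have h4 := mat_ch s
  rw [ts, ds, one_smul] at h4
  have e : (s - 1) * (s - 1) = s * s - (2 : k) • s + 1 := by
    rw [two_smul]; noncomm_ring
  rw [e, h4]

/-- Two quadratic relations of a nonscalar matrix have the same constant term. -/
lemma mat_det_of_rel {x : Matrix (Fin 2) (Fin 2) k} (hx : ∀ c : k, x ≠ c • 1) {a b : k}
    (h : x * x - a • x + b • 1 = 0) : x.det = b ∧ x.trace = a := by
  have h1 := mat_ch x
  have h2 : (a - x.trace) • x = (b - x.det) • (1 : Matrix (Fin 2) (Fin 2) k) := by
    have h3 : x * x - x.trace • x + x.det • 1 - (x * x - a • x + b • 1) = 0 := by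
      rw [h1, h, sub_zero]
    rw [sub_smul, sub_smul, ← sub_eq_zero]
    rw [← h3]; abel
  have h4 : a - x.trace = 0 := by
    by_contra hne
    apply hx ((a - x.trace)⁻¹ * (b - x.det))
    rw [mul_smul, ← h2, smul_smul, inv_mul_cancel₀ hne, one_smul]
  rw [h4, zero_smul] at h2
  have h5 : b - x.det = 0 := by
    have := congrFun (congrFun h2 0) 0
    simpa using this.symm
  exact ⟨by linear_combination -h5, by linear_combination -h4⟩

end mat

section lin

variable {k V : Type*} [Field k] [AddCommGroup V] [Module k V]

/-- a basis indexed by `Fin 2` -/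
noncomputable def bas (h : Module.finrank k V = 2) : Module.Basis (Fin 2) k V :=
  haveI : Module.Finite k V := Module.finite_of_finrank_pos (by omega)
  Module.finBasisOfFinrankEq k V h

/-- The algebra isomorphism with matrices. -/
noncomputable def toMat (h : Module.finrank k V = 2) :
    Module.End k V ≃ₐ[k] Matrix (Fin 2) (Fin 2) k := algEquivMatrix (bas h)

lemma end_unipotent_of (h : Module.finrank k V = 2) {s u : Module.End k V}
    (hu : (u - 1) * (u - 1) = 0) (h1 : (s * u - 1) * (s * u - 1) = 0)
    (h2 : (s * (u * u) - 1) * (s * (u * u) - 1) = 0) : (s - 1) * (s - 1) = 0 := by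
  apply (toMat h).injective
  have hu' := congrArg (toMat h) hu
  have h1' := congrArg (toMat h) h1
  have h2' := congrArg (toMat h) h2
  simp only [map_mul, map_sub, map_one, map_zero] at hu' h1' h2' ⊢
  exact mat_unipotent_of hu' h1' h2'

lemma end_det_of_rel (h : Module.finrank k V = 2) {x : Module.End k V}
    (hx : ∀ c : k, x ≠ c • 1) {a b : k} (hr : x * x - a • x + b • 1 = 0) :
    (toMat h x).det = b ∧ (toMat h x).trace = a := by
  apply mat_det_of_rel
  · intro c hc
    apply hx c
    apply (toMat h).injective
    rw [hc, map_smul, map_one]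
  · have := congrArg (toMat h) hr
    simpa only [map_add, map_sub, map_mul, map_smul, map_one, map_zero] using this

end lin

end Fermat.Agent.EGal
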