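import Mathlib
import Fermat.Agent.Frob.VarChange
import Fermat.Agent.Frob.Torsion
import Fermat.Agent.H25.Density
import Fermat.Agent.H05_Cyclo
import Fermat.Agent.EGal.Lin2
import Fermat.Prelude.Def_EllipticCurve_FrobeniusTrace
import Fermat.Prelude.Def_GaloisRep_ComplexConjugation

/-!
# The action of Galois on `E[p]`: Frobenius density
-/

set_option autoImplicit false

namespace Fermat.Agent.EGal

open WeierstrassCurve WeierstrassCurve.Affine WeierstrassCurve.Affine.Point
open Fermat.Agent.H08 Fermat.Agent.Frob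

/-- algebraic numbers -/
abbrev Qb : Type := AlgebraicClosure ℚ
/-- the absolute Galois group -/
abbrev GQ : Type := Qb ≃ₐ[ℚ] Qb

/-- the torsion module -/
abbrev VV (E : WeierstrassCurve ℚ) (p : ℕ) : Type :=
  Submodule.torsionBy ℤ ((E⁄Qb) : WeierstrassCurve.Affine Qb).Point p

/-- the Galois representation -/
noncomputable abbrev rho (E : WeierstrassCurve ℚ) (p : ℕ) : GQ →* Module.End (ZMod p) (VV E p) :=
  galoisRepModuleEnd (K := Qb) ℚ E p

variable {E : WeierstrassCurve ℚ} {p : ℕ}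

lemma coe_smul_VV (σ : GQ) (x : VV E p) : ((σ • x : VV E p) : (E⁄Qb).Point) = σ • (x : (E⁄Qb).Point) :=
  rfl

lemma smul_eq_of_agree {σ τ : GQ} {P : (E⁄Qb).Point} (hx : σ (px P) = τ (px P))
    (hy : σ (py P) = τ (py P)) : σ • P = τ • P := by
  rw [algEquiv_smul_def, algEquiv_smul_def]
  by_cases hP : P = 0
  · subst hP; rw [_root_.map_zero, _root_.map_zero]
  · apply pt_ext (map_ne_zero' _ hP) (map_ne_zero' _ hP)
    · rw [px_map, px_map]; exact hx
    · rw [py_map, py_map]; exact hy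

/-- coordinates of torsion points -/
def coords (E : WeierstrassCurve ℚ) (p : ℕ) : Set Qb :=
  {x | ∃ P : VV E p, x = px (P : (E⁄Qb).Point) ∨ x = py (P : (E⁄Qb).Point)}

lemma coords_finite [E.IsElliptic] (hp : p ≠ 0) : (coords E p).Finite := by
  have hfin : Finite (VV E p) := finite_torsionBy (K := Qb) E hp
  have h1 : (Set.range fun P : VV E p => px (P : (E⁄Qb).Point)).Finite := Set.finite_range _
  have h2 : (Set.range fun P : VV E p => py (P : (E⁄Qb).Point)).Finite := Set.finite_range _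
  apply (h1.union h2).subset
  rintro x ⟨P, rfl | rfl⟩
  · exact Or.inl ⟨P, rfl⟩
  · exact Or.inr ⟨P, rfl⟩

/-- **Frobenius elements are dense**, in a form adapted to `E[p]`. -/
theorem exists_frob [E.IsElliptic] (hp : p ≠ 0) {S : Set Qb} (hS : S.Finite) (T : Finset ℕ)
    (σ : GQ) : ∃ (l : ℕ) (_ : l.Prime) (_ : l ∉ T) (A : ValuationSubring Qb)
      (_ : A.LiesOverPrime l) (φ : GQ) (_ : A.IsFrobeniusAt φ l) (m n : ℕ),
      (∀ x ∈ S, φ x = (σ ^ m) x) ∧ (∀ x ∈ S, σ x = (φ ^ n) x) ∧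
      rho E p φ = rho E p σ ^ m ∧ rho E p σ = rho E p φ ^ n := by
  have hfin : (S ∪ coords E p).Finite := hS.union (coords_finite hp)
  have : Finite (S ∪ coords E p : Set Qb) := hfin
  have hF : FiniteDimensional ℚ (IntermediateField.adjoin ℚ (S ∪ coords E p)) := by
    apply IntermediateField.finiteDimensional_adjoin
    intro x _
    exact Algebra.IsIntegral.isIntegral x
  obtain ⟨l, h1, h2, A, h3, φ, h4, m, n, h5, h6⟩ :=
    Fermat.Agent.H25.exists_frobenius (IntermediateField.adjoin ℚ (S ∪ coords E p)) T σ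
  have hsub : ∀ x ∈ S ∪ coords E p, x ∈ IntermediateField.adjoin ℚ (S ∪ coords E p) :=
    fun x hx => IntermediateField.subset_adjoin ℚ _ hx
  refine ⟨l, h1, h2, A, h3, φ, h4, m, n, fun x hx => h5 x (hsub x (Or.inl hx)),
    fun x hx => h6 x (hsub x (Or.inl hx)), ?_, ?_⟩
  · rw [← map_pow]
    apply LinearMap.ext
    intro P
    apply Subtype.ext
    exact smul_eq_of_agree (h5 _ (hsub _ (Or.inr ⟨P, Or.inl rfl⟩)))
      (h5 _ (hsub _ (Or.inr ⟨P, Or.inr rfl⟩)))
  · rw [← map_pow]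
    apply LinearMap.ext
    intro P
    apply Subtype.ext
    exact smul_eq_of_agree (h6 _ (hsub _ (Or.inr ⟨P, Or.inl rfl⟩)))
      (h6 _ (hsub _ (Or.inr ⟨P, Or.inr rfl⟩)))

/-- The Frobenius relation for `ρ`. -/
theorem rho_rel {W : WeierstrassCurve ℤ} (hW : W.IsIntegralModelOf E) {l : ℕ} (hl : l.Prime)
    (hgood : W.IsGoodPrimeFor l) (hlp : ¬ l ∣ p) {A : ValuationSubring Qb}
    (hA : A.LiesOverPrime l) {φ : GQ} (hφ : A.IsFrobeniusAt φ l) :
    rho E p φ * rho E p φ - (W.apOfModel l : ZMod p) • rho E p φ + (l : ZMod p) • 1 = 0 := by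
  apply LinearMap.ext
  rintro ⟨P, hP⟩
  apply Subtype.ext
  rw [Submodule.mem_torsionBy_iff, natCast_zsmul] at hP
  have h := frobenius_relation_model hW hl hgood hA hφ hlp P hP
  have e1 : ((l : ZMod p) : ZMod p) = ((l : ℤ) : ZMod p) := by push_cast; rfl
  rw [e1]
  simp only [LinearMap.add_apply, LinearMap.sub_apply, LinearMap.smul_apply, Module.End.mul_apply,
    Module.End.one_apply, Int.cast_smul_eq_zsmul, LinearMap.zero_apply]
  exact h

end Fermat.Agent.EGal
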