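import Mathlib
import Fermat.Agent.EGal.Act

/-!
# Roots of unity and `p`-th roots of a prime
-/

set_option autoImplicit false

namespace Fermat.Agent.EGal

open Fermat.Agent.H08 Fermat.Agent.Frob

/-- the subgroup fixing the `m`-th roots of unity -/
def fixMu (m : ℕ) : Subgroup GQ where
  carrier := {σ | ∀ x : Qb, x ^ m = 1 → σ x = x}
  mul_mem' := by
    intro a b ha hb x hx
    rw [AlgEquiv.mul_apply, hb x hx, ha x hx]
  one_mem' := fun _ _ => rfl
  inv_mem' := by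
    intro a ha x hx
    have := ha x hx
    conv_lhs => rw [← this]
    exact a.symm_apply_apply x

lemma mem_fixMu {m : ℕ} {σ : GQ} : σ ∈ fixMu m ↔ ∀ x : Qb, x ^ m = 1 → σ x = x := Iff.rfl

lemma fixMu_normal (m : ℕ) : (fixMu m).Normal := by
  constructor
  intro n hn g x hx
  rw [AlgEquiv.mul_apply, AlgEquiv.mul_apply]
  have h1 : (g⁻¹ x) ^ m = 1 := by rw [← map_pow, hx, map_one]
  rw [hn _ h1]
  exact g.apply_symm_apply x

lemma fixMu_mono {m n : ℕ} (h : m ∣ n) : fixMu n ≤ fixMu m := by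
  intro σ hσ x hx
  obtain ⟨k, rfl⟩ := h
  exact hσ x (by rw [pow_mul, hx, one_pow])

lemma pow_apply_eq {σ : GQ} {x : Qb} (h : σ x = x) (n : ℕ) : (σ ^ n) x = x := by
  induction n with
  | zero => rfl
  | succ n ih => rw [pow_succ, AlgEquiv.mul_apply, h, ih]

lemma exists_primRoot {m : ℕ} (hm : m ≠ 0) : ∃ ζ : Qb, IsPrimitiveRoot ζ m := by
  haveI : NeZero m := ⟨hm⟩
  haveI : NeZero (m : Qb) := ⟨by exact_mod_cast hm⟩
  exact HasEnoughRootsOfUnity.exists_primitiveRoot Qb m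

lemma mu_finite {m : ℕ} (hm : m ≠ 0) : {x : Qb | x ^ m = 1}.Finite := by
  classical
  apply ((Polynomial.nthRoots m (1 : Qb)).toFinset.finite_toSet).subset
  intro x hx
  rw [Finset.mem_coe, Multiset.mem_toFinset, Polynomial.mem_nthRoots (Nat.pos_of_ne_zero hm)]
  exact hx

/-- Automorphisms commute on roots of unity. -/
lemma comm_mu {m : ℕ} (hm : m ≠ 0) (σ τ : GQ) {x : Qb} (hx : x ^ m = 1) :
    σ (τ x) = τ (σ x) := by
  obtain ⟨ζ, hζ⟩ := exists_primRoot hm
  haveI : NeZero m := ⟨hm⟩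
  have h1 : ∀ g : GQ, ∃ a, g ζ = ζ ^ a := by
    intro g
    have : (g ζ) ^ m = 1 := by rw [← map_pow, hζ.pow_eq_one, map_one]
    obtain ⟨i, -, hi⟩ := hζ.eq_pow_of_pow_eq_one this
    exact ⟨i, hi.symm⟩
  obtain ⟨i, -, rfl⟩ := hζ.eq_pow_of_pow_eq_one hx
  obtain ⟨a, ha⟩ := h1 σ
  obtain ⟨b, hb⟩ := h1 τ
  rw [map_pow, map_pow, map_pow, map_pow, ha, hb, map_pow, map_pow, ha, hb, ← pow_mul, ← pow_mul,
    ← pow_mul, ← pow_mul]
  congr 1
  ring

lemma commutator_mem {m : ℕ} (hm : m ≠ 0) (σ τ : GQ) : (σ * τ)⁻¹ * (τ * σ) ∈ fixMu m := by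
  intro x hx
  rw [AlgEquiv.mul_apply, AlgEquiv.mul_apply, ← comm_mu hm σ τ hx]
  exact (σ * τ).symm_apply_apply x

/-- **Congruence conditions satisfied by Frobenius elements.** -/
theorem frob_congr {m p q l : ℕ} (hp : p.Prime) (hq : q.Prime) (hpm : p ∣ m) (hm : m ≠ 0)
    (hl : l.Prime) (hlm : ¬ l ∣ m) (hlq : l ≠ q) {A : ValuationSubring Qb}
    (hA : A.LiesOverPrime l) {φ : GQ} (hφ : A.IsFrobeniusAt φ l) (hμ : φ ∈ fixMu m)
    {β : Qb} (hβ : β ^ p = (q : Qb)) (hφβ : φ β ≠ β) :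
    l ≡ 1 [MOD m] ∧ (q : ZMod l) ^ ((l - 1) / p) ≠ 1 := by
  have hlF := Fact.mk hl
  have hmod : l ≡ 1 [MOD m] := by
    obtain ⟨ζ, hζ⟩ := exists_primRoot hm
    have h1 := Fermat.Agent.H05.IsFrobeniusAt.apply_rootOfUnity hl hA hlm hφ hζ.pow_eq_one
    rw [hμ ζ hζ.pow_eq_one] at h1
    have hζ0 : ζ ≠ 0 := hζ.ne_zero hm
    have h2 : ζ ^ (l - 1) = 1 := by
      have e : ζ ^ (l - 1) * ζ = 1 * ζ := by
        rw [← pow_succ, Nat.sub_add_cancel hl.one_lt.le, one_mul]; exact h1.symm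
      exact mul_right_cancel₀ hζ0 e
    exact ((Nat.modEq_iff_dvd' hl.one_lt.le).mpr (hζ.dvd_of_pow_eq_one _ h2)).symm
  refine ⟨hmod, fun hcon => ?_⟩
  apply hφβ
  have hlp : ¬ l ∣ p := fun h => hlm (h.trans hpm)
  have hplt : p ∣ l - 1 := by
    have := (Nat.modEq_iff_dvd' hl.one_lt.le).mp hmod.symm
    exact hpm.trans this
  obtain ⟨k, hk⟩ := hplt
  rw [hk, Nat.mul_div_cancel_left _ hp.pos] at hcon
  have hβA : β ∈ A := by
    apply Fermat.Agent.H05.mem_of_isIntegral A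
    apply IsIntegral.of_pow hp.pos
    rw [hβ]
    exact isIntegral_algebraMap (R := ℤ) (x := (q : ℤ))
  have hβ1 : A.valuation β ≤ 1 := (A.valuation_le_one_iff _).mpr hβA
  have hlq' : ¬ l ∣ q := fun h => hlq ((Nat.prime_dvd_prime_iff_eq hl hq).mp h)
  have hβv : A.valuation β = 1 := by
    apply le_antisymm hβ1
    by_contra hc
    push Not at hc
    have h1 := val_natCast_eq_one hl hA hlq'
    rw [← hβ, map_pow] at h1
    exact absurd h1 (ne_of_lt (pow_lt_one₀ zero_le' hc hp.ne_zero))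
  have hβ0 : β ≠ 0 := by
    intro h; rw [h, _root_.map_zero] at hβv; exact zero_ne_one hβv
  have hβl : β ^ l = β * (q : Qb) ^ k := by
    have : l = 1 + p * k := by have := hl.one_lt; omega
    rw [this, pow_add, pow_one, pow_mul, hβ]
  have hqk : A.valuation ((q : Qb) ^ k - 1) < 1 := by
    have h1 : (l : ℤ) ∣ (q : ℤ) ^ k - 1 := by
      rw [← ZMod.intCast_zmod_eq_zero_iff_dvd]
      push_cast
      rw [hcon, sub_self]
    have h2 := val_intCast_lt_one hA h1
    push_cast at h2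
    exact h2
  obtain ⟨b, hb⟩ := Rz.exists_of_le hβ1
  have h1 : A.valuation (φ β - β ^ l) < 1 := (hb.frob hφ).sub_lt (hb.pow l)
  have h2 : A.valuation (φ β - β) < 1 := by
    have e : φ β - β = (φ β - β ^ l) + β * ((q : Qb) ^ k - 1) := by rw [hβl]; ring
    rw [e]
    exact v_add_lt_one h1 (v_mul_lt_one_right hβ1 hqk)
  have h3 : (φ β / β) ^ p = 1 := by
    rw [div_pow, ← map_pow, hβ, map_natCast, div_self]
    rw [← hβ]; exact pow_ne_zero _ hβ0
  have h4 : φ β / β - 1 ∈ A.nonunits := by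
    rw [A.mem_nonunits_iff]
    have e : φ β / β - 1 = (φ β - β) / β := by rw [sub_div, div_self hβ0]
    rw [e, map_div₀, hβv, div_one]
    exact h2
  have h5 := Fermat.Agent.H05.rootsOfUnity_eq_of_residue_eq hl hA hlp h3 (one_pow p) h4
  rw [div_eq_iff hβ0, one_mul] at h5
  exact h5

lemma conj_mu {m : ℕ} (hm : m ≠ 0) {x : Qb} (hx : x ^ m = 1) : complexConjugation x = x⁻¹ := by
  have hinj : Function.Injective complexEmbedding := complexEmbedding.injective
  apply hinj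
  rw [complexEmbedding_complexConjugation, map_inv₀]
  have h1 : (complexEmbedding x) ^ m = 1 := by rw [← map_pow, hx, map_one]
  have h2 : ‖complexEmbedding x‖ = 1 := Complex.norm_eq_one_of_pow_eq_one h1 hm
  rw [Complex.inv_def, Complex.normSq_eq_norm_sq, h2]
  simp

lemma conj_conj (x : Qb) : complexConjugation (complexConjugation x) = x := by
  have := congrArg (fun g : GQ => g x) complexConjugation_mul_self
  exact this

/-- A `p`-th root of `q` fixed by complex conjugation. -/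
lemma exists_beta {p : ℕ} (hp : p.Prime) (hp2 : p ≠ 2) {q : ℕ} (hq : q ≠ 0) :
    ∃ β : Qb, β ^ p = (q : Qb) ∧ complexConjugation β = β := by
  obtain ⟨β₀, hβ₀⟩ := IsAlgClosed.exists_pow_nat_eq (q : Qb) hp.pos
  have hβ00 : β₀ ≠ 0 := by
    rintro rfl
    rw [zero_pow hp.ne_zero] at hβ₀
    exact hq (by exact_mod_cast hβ₀.symm)
  set ζ := complexConjugation β₀ / β₀ with hζ
  have hζp : ζ ^ p = 1 := by
    rw [hζ, div_pow, ← map_pow, hβ₀, map_natCast, div_self]
    exact_mod_cast hq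
  have hζ0 : ζ ≠ 0 := by
    rintro h0
    rw [h0, zero_pow hp.ne_zero] at hζp
    exact zero_ne_one hζp
  have hcβ : complexConjugation β₀ = ζ * β₀ := by rw [hζ, div_mul_cancel₀ _ hβ00]
  obtain ⟨a, ha⟩ : ∃ a, p + 1 = 2 * a := by
    have := hp.eq_two_or_odd'.resolve_left hp2
    obtain ⟨b, hb⟩ := this
    exact ⟨b + 1, by omega⟩
  refine ⟨ζ ^ a * β₀, ?_, ?_⟩
  · rw [mul_pow, ← pow_mul, mul_comm a p, pow_mul, hζp, one_pow, one_mul, hβ₀]
  · rw [map_mul, map_pow, conj_mu hp.ne_zero hζp, hcβ, inv_pow]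
    have h1 : ζ ^ a * ζ ^ a = ζ := by
      rw [← pow_add, ← two_mul, ← ha, pow_succ, hζp, one_mul]
    have h2 : (ζ ^ a)⁻¹ * ζ = ζ ^ a := by
      rw [inv_mul_eq_iff_eq_mul₀ (pow_ne_zero _ hζ0), h1]
    rw [← mul_assoc, h2]

/-- Some automorphism fixing roots of unity moves `β`. -/
lemma exists_tau {p : ℕ} (hp : p.Prime) (hp2 : p ≠ 2) {q : ℕ} (hq : q.Prime) {β : Qb}
    (hβ : β ^ p = (q : Qb)) (hc : complexConjugation β = β) {m : ℕ} (hm : m ≠ 0) :
    ∃ τ ∈ fixMu m, τ β ≠ β := by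
  by_contra hcon
  push Not at hcon
  have hβ0 : β ≠ 0 := by
    rintro rfl
    rw [zero_pow hp.ne_zero] at hβ
    exact hq.ne_zero (by exact_mod_cast hβ.symm)
  have hfix : ∀ σ : GQ, σ β = β := by
    intro σ
    have h1 := hcon _ (commutator_mem hm σ complexConjugation)
    rw [AlgEquiv.mul_apply, AlgEquiv.mul_apply] at h1
    have h2 : complexConjugation (σ β) = σ (complexConjugation β) := by
      have h3 := congrArg (σ * complexConjugation : GQ) h1
      have h4 : (σ * complexConjugation : GQ) ((σ * complexConjugation)⁻¹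
          (complexConjugation (σ β))) = complexConjugation (σ β) :=
        (σ * complexConjugation : GQ).apply_symm_apply _
      rw [h4, AlgEquiv.mul_apply] at h3
      exact h3
    rw [hc] at h2
    set χ := σ β / β with hχ
    have hχp : χ ^ p = 1 := by
      rw [hχ, div_pow, ← map_pow, hβ, map_natCast, div_self]
      exact_mod_cast hq.ne_zero
    have hσβ : σ β = χ * β := by rw [hχ, div_mul_cancel₀ _ hβ0]
    rw [hσβ, map_mul, hc, conj_mu hp.ne_zero hχp] at h2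
    have h3 : χ⁻¹ = χ := mul_right_cancel₀ hβ0 h2
    have hχ0 : χ ≠ 0 := by
      intro h0
      rw [h0, zero_pow hp.ne_zero] at hχp
      exact zero_ne_one hχp
    have h4 : χ ^ 2 = 1 := by
      rw [sq]; nth_rewrite 1 [← h3]; exact inv_mul_cancel₀ hχ0
    have h5 : χ = 1 := by
      have hcop : Nat.Coprime 2 p := by
        rw [Nat.coprime_primes Nat.prime_two hp]; exact fun h => hp2 h.symm
      have h6 : orderOf χ ∣ 2 := orderOf_dvd_of_pow_eq_one h4
      have h7 : orderOf χ ∣ p := orderOf_dvd_of_pow_eq_one hχp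
      have h8 := Nat.dvd_gcd h6 h7
      rw [hcop.gcd_eq_one, Nat.dvd_one, orderOf_eq_one_iff] at h8
      exact h8
    rw [hσβ, h5, one_mul]
  haveI hgal : IsGalois ℚ Qb := by
    haveI : Normal ℚ Qb := IsAlgClosure.normal ℚ Qb
    exact ⟨⟩
  obtain ⟨r, hr⟩ := (InfiniteGalois.mem_range_algebraMap_iff_fixed β).mpr hfix
  have h1 : r ^ p = (q : ℚ) := by
    apply (algebraMap ℚ Qb).injective
    rw [map_pow, hr, hβ, map_natCast]
  haveI := Fact.mk hq
  have h2 := congrArg (padicValRat q) h1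
  have hr0 : r ≠ 0 := by
    rintro rfl
    rw [zero_pow hp.ne_zero] at h1
    exact hq.ne_zero (by exact_mod_cast h1.symm)
  rw [padicValRat.pow, padicValRat.self hq.one_lt] at h2
  have h3 : (p : ℤ) ∣ 1 := ⟨_, h2.symm⟩
  have h4 : p ∣ 1 := by exact_mod_cast h3
  exact hp.one_lt.ne' (Nat.dvd_one.mp h4)

end Fermat.Agent.EGal
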