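import Mathlib
import Fermat.Agent.EGal.Kummer

/-!
# Existence of auxiliary primes with `p ∤ a_l - 2`
-/

set_option autoImplicit false

namespace Fermat.Agent.EGal

open WeierstrassCurve WeierstrassCurve.Affine WeierstrassCurve.Affine.Point
open Fermat.Agent.H08 Fermat.Agent.Frob

section ring

variable {R : Type*} [Ring R]

lemma unip_pow {x : R} (h : (x - 1) * (x - 1) = 0) (n : ℕ) : x ^ n = 1 + n • (x - 1) := by
  induction n with
  | zero => simp
  | succ n ih =>
    have e : x = 1 + (x - 1) := by abel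
    rw [pow_succ, ih]
    nth_rewrite 2 [e]
    rw [mul_add, mul_one, add_mul, one_mul, smul_mul_assoc, h, smul_zero, add_zero, add_smul,
      one_smul]
    abel

lemma unip_pow_unip {x : R} (h : (x - 1) * (x - 1) = 0) (n : ℕ) :
    (x ^ n - 1) * (x ^ n - 1) = 0 := by
  have e : x ^ n - 1 = n • (x - 1) := by rw [unip_pow h n]; abel
  rw [e, smul_mul_assoc, mul_smul_comm, h, smul_zero, smul_zero]

/-- multiplication by the characteristic kills modules -/
lemma char_nsmul (n : ℕ) {k M : Type*} [Field k] [CharP k n] [AddCommGroup M] [Module k M]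
    (x : M) : n • x = 0 := by
  rw [← Nat.cast_smul_eq_nsmul k, CharP.cast_eq_zero, zero_smul]

end ring

variable {E : WeierstrassCurve ℚ} {p : ℕ}

lemma rho_apply (σ : GQ) (x : VV E p) : rho E p σ x = σ • x := rfl

lemma model_Δ_ne_zero [E.IsElliptic] {W : WeierstrassCurve ℤ} (hW : W.IsIntegralModelOf E) :
    W.Δ ≠ 0 := by
  obtain ⟨C, hC⟩ := hW
  intro h
  have h1 : (C • E).Δ = 0 := by rw [hC, WeierstrassCurve.map_Δ, h, _root_.map_zero]
  rw [WeierstrassCurve.variableChange_Δ] at h1
  have h2 := (mul_eq_zero.mp h1).resolve_left (pow_ne_zero _ (Units.ne_zero _))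
  exact E.isUnit_Δ.ne_zero h2

/-- The trace/determinant relation for nonscalar elements. -/
lemma apply_zeta_of_nonscalar [E.IsElliptic] {W : WeierstrassCurve ℤ} (hW : W.IsIntegralModelOf E)
    (hp : p.Prime) (h2 : letI := Fact.mk hp; Module.finrank (ZMod p) (VV E p) = 2) {g : GQ}
    (hg : ∀ c : ZMod p, rho E p g ≠ c • 1) {ζ : Qb} (hζ : ζ ^ p = 1) :
    letI := Fact.mk hp
    ∃ k : ℕ, g ζ = ζ ^ k ∧ (toMat h2 (rho E p g)).det = (k : ZMod p) := by
  letI := Fact.mk hp
  obtain ⟨l, hl, hlT, A, hA, φ, hφ, m, n, h3, h4, h5, h6⟩ :=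
    exists_frob (E := E) (p := p) hp.ne_zero (mu_finite hp.ne_zero)
      ({p} ∪ W.Δ.natAbs.primeFactors) g
  rw [Finset.mem_union, not_or, Finset.mem_singleton] at hlT
  obtain ⟨hlp, hlΔ⟩ := hlT
  have hlp' : ¬ l ∣ p := fun h => hlp ((Nat.prime_dvd_prime_iff_eq hl hp).mp h)
  have hgood : W.IsGoodPrimeFor l := by
    intro hd
    apply hlΔ
    rw [Nat.mem_primeFactors]
    exact ⟨hl, Int.natCast_dvd.mp hd, Int.natAbs_ne_zero.mpr (model_Δ_ne_zero hW)⟩
  have hns : ∀ c : ZMod p, rho E p φ ≠ c • 1 := by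
    intro c hc
    apply hg (c ^ n)
    rw [h6, hc, smul_pow, one_pow]
  have hrel := rho_rel hW hl hgood hlp' hA hφ
  obtain ⟨hdet, -⟩ := end_det_of_rel h2 hns hrel
  have hφζ := Fermat.Agent.H05.IsFrobeniusAt.apply_rootOfUnity hl hA hlp' hφ hζ
  refine ⟨l ^ n, ?_, ?_⟩
  · rw [h4 ζ hζ]
    have : ∀ j : ℕ, (φ ^ j) ζ = ζ ^ (l ^ j) := by
      intro j
      induction j with
      | zero => simp
      | succ j ih =>
        rw [pow_succ', AlgEquiv.mul_apply, ih, map_pow, hφζ, ← pow_mul, pow_succ, mul_comm]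
    exact this n
  · rw [h6, map_pow, Matrix.det_pow, hdet]
    push_cast
    rfl

/-- If the representation is irreducible then elements of `fixMu m` cannot all be unipotent. -/
theorem not_all_unipotent [E.IsElliptic] {W : WeierstrassCurve ℤ} (hW : W.IsIntegralModelOf E)
    (hp : p.Prime) (hp2 : p ≠ 2)
    (hirr : GaloisRepIsIrreducible (K := AlgebraicClosure ℚ) ℚ E p) {m : ℕ} (hm : m ≠ 0) :
    ¬ ∀ σ ∈ fixMu m, (rho E p σ - 1) * (rho E p σ - 1) = 0 := by
  intro hall
  letI := Fact.mk hp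
  have h2 : Module.finrank (ZMod p) (VV E p) = 2 := finrank_torsionBy (K := Qb) E p
  haveI hfin : Finite (VV E p) := finite_torsionBy (K := Qb) E hp.ne_zero
  obtain ⟨hnt, hirr⟩ := hirr
  -- step 1 : the group acts trivially
  have htriv : ∀ σ ∈ fixMu m, rho E p σ = 1 := by
    let ρ' : GQ →* (Module.End (ZMod p) (VV E p))ˣ := (rho E p).toHomUnits
    let H := (fixMu m).map ρ'
    have hH : IsPGroup p H := by
      rintro ⟨h, hh⟩
      obtain ⟨σ, hσ, rfl⟩ := hh
      refine ⟨1, ?_⟩
      apply Subtype.ext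
      apply Units.ext
      rw [pow_one]
      change (((ρ' σ) ^ p : (Module.End (ZMod p) (VV E p))ˣ) : Module.End (ZMod p) (VV E p)) = 1
      rw [Units.val_pow_eq_pow_val]
      change (rho E p σ) ^ p = 1
      rw [unip_pow (hall σ hσ) p, char_nsmul p (k := ZMod p), add_zero]
    have hcard : p ∣ Nat.card (VV E p) := by
      rw [card_torsionBy (K := Qb) E hp.ne_zero]
      exact dvd_pow_self p two_ne_zero
    have h0 : (0 : VV E p) ∈ MulAction.fixedPoints H (VV E p) := by
      intro h
      exact smul_zero h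
    obtain ⟨b, hb, hb0⟩ := hH.exists_fixed_point_of_prime_dvd_card_of_fixed_point (VV E p) hcard h0
    let N : Submodule (ZMod p) (VV E p) :=
      { carrier := {v | ∀ σ ∈ fixMu m, rho E p σ v = v}
        add_mem' := by
          intro a b ha hb σ hσ
          rw [map_add, ha σ hσ, hb σ hσ]
        zero_mem' := by
          intro σ _
          exact _root_.map_zero _
        smul_mem' := by
          intro c x hx σ hσ
          rw [map_smul, hx σ hσ] }
    have hbN : b ∈ N := by
      intro σ hσ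
      have := hb ⟨ρ' σ, Subgroup.mem_map_of_mem ρ' hσ⟩
      exact this
    have hstab : IsGaloisStable ℚ N := by
      intro σ x hx τ hτ
      have h3 : σ⁻¹ * τ * σ ∈ fixMu m := by
        have := (fixMu_normal m).conj_mem τ hτ σ⁻¹
        rwa [inv_inv] at this
      have h4 := hx _ h3
      rw [rho_apply] at h4 ⊢
      rw [mul_smul, mul_smul] at h4
      have h5 := congrArg (fun z => σ • z) h4
      simp only [smul_inv_smul] at h5
      exact h5
    rcases hirr N hstab with hN | hN
    · exfalso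
      rw [hN, Submodule.mem_bot] at hbN
      exact hb0 hbN.symm
    · intro σ hσ
      apply LinearMap.ext
      intro v
      have hv : v ∈ N := by rw [hN]; exact Submodule.mem_top
      exact hv σ hσ
  -- step 2 : the image is abelian
  have hcomm : ∀ σ τ : GQ, rho E p σ * rho E p τ = rho E p τ * rho E p σ := by
    intro σ τ
    have h3 := htriv _ (commutator_mem hm σ τ)
    have h4 : rho E p (σ * τ) * rho E p ((σ * τ)⁻¹ * (τ * σ)) = rho E p (τ * σ) := by
      rw [← map_mul, mul_inv_cancel_left]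
    rw [h3, mul_one, map_mul, map_mul] at h4
    exact h4
  -- step 3 : complex conjugation acts by a sign
  have hc : rho E p complexConjugation = 1 ∨ rho E p complexConjugation = -1 := by
    set C := rho E p complexConjugation with hC
    have hCC : C * C = 1 := by rw [hC, ← map_mul, complexConjugation_mul_self, map_one]
    have hstab : IsGaloisStable ℚ (LinearMap.ker (C - 1)) := by
      intro σ x hx
      rw [LinearMap.mem_ker] at hx ⊢
      have h3 : (C - 1) * rho E p σ = rho E p σ * (C - 1) := by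
        rw [sub_mul, mul_sub, hC, hcomm, one_mul, mul_one]
      have h4 := congrArg (fun f : Module.End (ZMod p) (VV E p) => f x) h3
      simp only [Module.End.mul_apply] at h4
      rw [hx, _root_.map_zero] at h4
      exact h4
    rcases hirr _ hstab with hN | hN
    · right
      have h3 : (C - 1) * (C + 1) = 0 := by
        have : (C - 1) * (C + 1) = C * C - 1 := by noncomm_ring
        rw [this, hCC, sub_self]
      have h4 : C + 1 = 0 := by
        apply LinearMap.ext
        intro x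
        have h5 : (C + 1) x ∈ LinearMap.ker (C - 1) := by
          rw [LinearMap.mem_ker]
          have := congrArg (fun f : Module.End (ZMod p) (VV E p) => f x) h3
          exact this
        rw [hN, Submodule.mem_bot] at h5
        exact h5
      exact eq_neg_of_add_eq_zero_left h4
    · left
      have h3 : C - 1 = 0 := LinearMap.ker_eq_top.mp hN
      exact sub_eq_zero.mp h3
  -- step 4 : a nonscalar element
  obtain ⟨g, hg⟩ : ∃ g : GQ, ∀ c : ZMod p, rho E p g ≠ c • 1 := by
    by_contra hcon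
    push Not at hcon
    obtain ⟨v, hv⟩ := exists_ne (0 : VV E p)
    have hstab : IsGaloisStable ℚ (Submodule.span (ZMod p) {v}) := by
      intro σ x hx
      obtain ⟨c, hc⟩ := hcon σ
      have : σ • x = c • x := by
        rw [← rho_apply, hc]; rfl
      rw [this]
      exact Submodule.smul_mem _ _ hx
    rcases hirr _ hstab with hN | hN
    · rw [Submodule.span_singleton_eq_bot] at hN
      exact hv hN
    · have h3 : Module.finrank (ZMod p) (Submodule.span (ZMod p) {v}) = 1 :=
        finrank_span_singleton hv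
      rw [hN, finrank_top, h2] at h3
      omega
  obtain ⟨ζ, hζ⟩ := exists_primRoot hp.ne_zero
  obtain ⟨k, hk1, hk2⟩ := apply_zeta_of_nonscalar hW hp h2 hg hζ.pow_eq_one
  have hneg : ∀ x : Module.End (ZMod p) (VV E p), (toMat h2 (-x)).det = (toMat h2 x).det := by
    intro x
    rw [map_neg, Matrix.det_neg]
    simp
  have hcg : ∀ c : ZMod p, rho E p (complexConjugation * g) ≠ c • 1 := by
    intro c hc'
    rw [map_mul] at hc'
    rcases hc with hc | hc
    · rw [hc, one_mul] at hc'
      exact hg c hc'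
    · rw [hc, neg_one_mul] at hc'
      apply hg (-c)
      rw [neg_smul, ← hc', neg_neg]
  obtain ⟨k', hk1', hk2'⟩ := apply_zeta_of_nonscalar hW hp h2 hcg hζ.pow_eq_one
  have hdet : (toMat h2 (rho E p (complexConjugation * g))).det = (toMat h2 (rho E p g)).det := by
    rw [map_mul]
    rcases hc with hc | hc
    · rw [hc, one_mul]
    · rw [hc, neg_one_mul, hneg]
  rw [hk2, hk2', ZMod.natCast_eq_natCast_iff] at hdet
  have h3 : ζ ^ k' = ζ ^ k := by
    have := hdet
    rw [hζ.eq_orderOf] at this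
    exact pow_eq_pow_of_modEq this (pow_orderOf_eq_one ζ)
  rw [h3, ← hk1, AlgEquiv.mul_apply] at hk1'
  have h4 : (g ζ) ^ p = 1 := by rw [← map_pow, hζ.pow_eq_one, map_one]
  rw [conj_mu hp.ne_zero h4] at hk1'
  have hg0 : g ζ ≠ 0 := by
    intro h0
    rw [h0, zero_pow hp.ne_zero] at h4
    exact zero_ne_one h4
  have h5 : (g ζ) ^ 2 = 1 := by
    rw [sq]; nth_rewrite 1 [← hk1']; exact inv_mul_cancel₀ hg0
  have h6 : ζ ^ 2 = 1 := by
    apply g.injective
    rw [map_pow, h5, map_one]
  have h7 := hζ.dvd_of_pow_eq_one 2 h6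
  exact hp2 ((Nat.prime_dvd_prime_iff_eq hp Nat.prime_two).mp h7)

/-- **Existence of auxiliary primes.** -/
theorem GAL (E : WeierstrassCurve ℚ) [E.IsElliptic] {W : WeierstrassCurve ℤ}
    (hW : W.IsIntegralModelOf E) {p q : ℕ} (hp : p.Prime) (hp2 : p ≠ 2) (hq : q.Prime)
    (_hqp : q ≠ p)
    (hirr : WeierstrassCurve.Affine.Point.GaloisRepIsIrreducible (K := AlgebraicClosure ℚ) ℚ E p)
    (M : ℕ) (hM : 0 < M) (T : Finset ℕ) :
    ∃ l : ℕ, l.Prime ∧ l ∉ T ∧ W.IsGoodPrimeFor l ∧ l ≠ p ∧ l ≠ q ∧ l ≡ 1 [MOD M * p] ∧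
      (q : ZMod l) ^ ((l - 1) / p) ≠ 1 ∧ ¬ ((p : ℤ) ∣ W.apOfModel l - 2) := by
  by_contra hcon
  push Not at hcon
  letI := Fact.mk hp
  have h2 : Module.finrank (ZMod p) (VV E p) = 2 := finrank_torsionBy (K := Qb) E p
  have hm : M * p ≠ 0 := mul_ne_zero hM.ne' hp.ne_zero
  obtain ⟨β, hβ, hcβ⟩ := exists_beta hp hp2 hq.ne_zero
  obtain ⟨τ, hτ, hτβ⟩ := exists_tau hp hp2 hq hβ hcβ hm
  have L1 : ∀ σ ∈ fixMu (M * p), σ β ≠ β → (rho E p σ - 1) * (rho E p σ - 1) = 0 := by
    intro σ hσ hσβ
    obtain ⟨l, hl, hlT, A, hA, φ, hφ, a, b, h3, h4, h5, h6⟩ :=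
      exists_frob (E := E) (p := p) hp.ne_zero
        ((mu_finite hm).union (Set.finite_singleton β))
        (T ∪ ({p, q} ∪ ((M * p).primeFactors ∪ W.Δ.natAbs.primeFactors))) σ
    simp only [Finset.mem_union, not_or, Finset.mem_insert, Finset.mem_singleton] at hlT
    obtain ⟨hlT, ⟨hlp, hlq⟩, hlm, hlΔ⟩ := hlT
    have hlp' : ¬ l ∣ p := fun h => hlp ((Nat.prime_dvd_prime_iff_eq hl hp).mp h)
    have hlm' : ¬ l ∣ M * p := fun h => hlm (Nat.mem_primeFactors.mpr ⟨hl, h, hm⟩)
    have hgood : W.IsGoodPrimeFor l := by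
      intro hd
      apply hlΔ
      rw [Nat.mem_primeFactors]
      exact ⟨hl, Int.natCast_dvd.mp hd, Int.natAbs_ne_zero.mpr (model_Δ_ne_zero hW)⟩
    have hφμ : φ ∈ fixMu (M * p) := by
      intro x hx
      rw [h3 x (Or.inl hx)]
      exact pow_apply_eq (hσ x hx) a
    have hφβ : φ β ≠ β := by
      intro h7
      apply hσβ
      rw [h4 β (Or.inr rfl)]
      exact pow_apply_eq h7 b
    obtain ⟨h7, h8⟩ := frob_congr hp hq (Dvd.intro_left M rfl) hm hl hlm' hlq hA hφ hφμ hβ hφβ
    have h9 := hcon l hl hlT hgood hlp hlq h7 h8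
    have hrel := rho_rel hW hl hgood hlp' hA hφ
    have ha : ((W.apOfModel l : ℤ) : ZMod p) = 2 := by
      have := (ZMod.intCast_zmod_eq_zero_iff_dvd _ p).mpr h9
      push_cast at this
      exact sub_eq_zero.mp this
    have hl1 : ((l : ℕ) : ZMod p) = 1 := by
      have h10 : l ≡ 1 [MOD p] := h7.of_mul_left M
      have := (ZMod.natCast_eq_natCast_iff l 1 p).mpr h10
      rw [this, Nat.cast_one]
    rw [ha, hl1, one_smul] at hrel
    have h10 : (rho E p φ - 1) * (rho E p φ - 1) = 0 := by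
      rw [← hrel, two_smul]
      noncomm_ring
    rw [h6]
    exact unip_pow_unip h10 b
  apply not_all_unipotent hW hp hp2 hirr hm
  intro σ hσ
  by_cases hσβ : σ β = β
  · have h3 := L1 τ hτ hτβ
    have hβ0 : β ≠ 0 := by
      rintro rfl
      rw [zero_pow hp.ne_zero] at hβ
      exact hq.ne_zero (by exact_mod_cast hβ.symm)
    set χ := τ β / β with hχ
    have hχp : χ ^ p = 1 := by
      rw [hχ, div_pow, ← map_pow, hβ, map_natCast, div_self]
      exact_mod_cast hq.ne_zero
    have hτβ' : τ β = χ * β := by rw [hχ, div_mul_cancel₀ _ hβ0]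
    have hχm : χ ^ (M * p) = 1 := by rw [mul_comm, pow_mul, hχp, one_pow]
    have hχ1 : χ ≠ 1 := by
      intro h1
      apply hτβ
      rw [hτβ', h1, one_mul]
    have hστ : (σ * τ) β = χ * β := by
      rw [AlgEquiv.mul_apply, hτβ', map_mul, hσ χ hχm, hσβ]
    have h4 := L1 (σ * τ) ((fixMu _).mul_mem hσ hτ) (by
      rw [hστ]
      intro h
      apply hχ1
      exact mul_right_cancel₀ hβ0 (by rw [h, one_mul]))
    have h5 := L1 (σ * (τ * τ)) ((fixMu _).mul_mem hσ ((fixMu _).mul_mem hτ hτ)) (by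
      rw [← mul_assoc, AlgEquiv.mul_apply, hτβ', map_mul, hστ,
        (fixMu (M * p)).mul_mem hσ hτ χ hχm]
      intro h
      have h6 : χ ^ 2 = 1 := by
        rw [sq]
        exact mul_right_cancel₀ hβ0 (by rw [one_mul, mul_assoc, h])
      apply hχ1
      have hcop : Nat.Coprime 2 p := by
        rw [Nat.coprime_primes Nat.prime_two hp]; exact fun h => hp2 h.symm
      have h8 := Nat.dvd_gcd (orderOf_dvd_of_pow_eq_one h6) (orderOf_dvd_of_pow_eq_one hχp)
      rw [hcop.gcd_eq_one, Nat.dvd_one, orderOf_eq_one_iff] at h8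
      exact h8)
    rw [map_mul] at h4 h5
    rw [map_mul] at h5
    exact end_unipotent_of h2 h3 h4 h5
  · exact L1 σ hσ hσβ

end Fermat.Agent.EGal
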